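/-
S16 (lower bound, group-theory input), helper97.

Lifting homomorphisms `Γ → A` along a surjection `π : B → A` of coefficient groups
(`Γ ≤ SL(2,ℤ)`, `-1 ∈ Γ`): if `χ : Γ → A` kills `-1` and all elements of `Γ` that are conjugate
in `SL(2,ℤ)` to `S` or to `U = S * T`, then `χ = π ∘ ψ` for some `ψ : Γ → B`
(`exists_lift_hom`, `exists_int_lift`).  Also: orbit-sum formulas for cocycles, and the
existence of an integral homomorphism with `ψ T = 1`.
-/
import Fermat.Agent.S16.H97.CocyclePair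

set_option autoImplicit false

open scoped MatrixGroups
open ModularGroup

namespace Fermat.Agent.S16.H97

noncomputable section

variable {Γ : Subgroup SL(2, ℤ)} {A B : Type*} [AddCommGroup A] [AddCommGroup B]

/-! ### Countability of the coset space -/

theorem countable_SL2Z : Countable (SL(2, ℤ)) :=
  Function.Injective.countable (β := Fin 2 → Fin 2 → ℤ)
    (f := fun g : SL(2, ℤ) => fun i j => g.1 i j)
    (fun _ _ hgh => Subtype.ext (Matrix.ext fun i j => congrFun (congrFun hgh i) j))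

variable (Γ) in
theorem exists_injective_cos : ∃ e : Cos Γ → ℕ, Function.Injective e := by
  have := countable_SL2Z
  have : Countable (Cos Γ) := QuotientGroup.mk_surjective.countable
  exact exists_injective_nat _

/-! ### Lifting pairs -/

/-- Lift of a function `a` with `(1 + S) a = 0`, vanishing at the fixed points of `S`. -/
theorem exists_lift_S (hneg : (-1 : SL(2, ℤ)) ∈ Γ) (π : B →+ A) (hπ : Function.Surjective π)
    (a : Cos Γ → A) (ha : ∀ x, a x + a (S • x) = 0) (hfix : ∀ x, S • x = x → a x = 0) :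
    ∃ a' : Cos Γ → B, (∀ x, π (a' x) = a x) ∧ ∀ x, a' x + a' (S • x) = 0 := by
  classical
  obtain ⟨e, he⟩ := exists_injective_cos Γ
  let σ : A → B := Function.surjInv hπ
  have hσ : ∀ t, π (σ t) = t := Function.surjInv_eq hπ
  let a' : Cos Γ → B := fun x =>
    if S • x = x then 0 else if e x < e (S • x) then σ (a x) else - σ (a (S • x))
  have hSS : ∀ x : Cos Γ, S • S • x = x := S_smul_S_smul hneg
  have v1 : ∀ x, S • x = x → a' x = 0 := fun x h => if_pos h
  have v2 : ∀ x, ¬ S • x = x → e x < e (S • x) → a' x = σ (a x) := fun x h h' => by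
    change (if S • x = x then 0 else if e x < e (S • x) then σ (a x) else - σ (a (S • x))) = _
    rw [if_neg h, if_pos h']
  have v3 : ∀ x, ¬ S • x = x → ¬ e x < e (S • x) → a' x = - σ (a (S • x)) := fun x h h' => by
    change (if S • x = x then 0 else if e x < e (S • x) then σ (a x) else - σ (a (S • x))) = _
    rw [if_neg h, if_neg h']
  refine ⟨a', fun x => ?_, fun x => ?_⟩
  · by_cases h1 : S • x = x
    · rw [v1 x h1, map_zero]
      exact (hfix x h1).symm
    · by_cases h2 : e x < e (S • x)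
      · rw [v2 x h1 h2]
        exact hσ _
      · rw [v3 x h1 h2, map_neg, hσ]
        exact neg_eq_of_add_eq_zero_left (ha x)
  · by_cases h1 : S • x = x
    · rw [h1, v1 x h1, add_zero]
    · have h1' : ¬ S • S • x = S • x := by
        rw [hSS]; exact fun h => h1 h.symm
      have hne : e x ≠ e (S • x) := fun h => h1 (he h).symm
      by_cases h2 : e x < e (S • x)
      · have h2' : ¬ e (S • x) < e (S • S • x) := by rw [hSS]; omega
        rw [v2 x h1 h2, v3 (S • x) h1' h2', hSS]
        abel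
      · have h2' : e (S • x) < e (S • S • x) := by rw [hSS]; omega
        rw [v3 x h1 h2, v2 (S • x) h1' h2']
        abel

/-- Lift of a function `b` with `(1 + U + U²) b = 0`, vanishing at the fixed points of `U`. -/
theorem exists_lift_U (hneg : (-1 : SL(2, ℤ)) ∈ Γ) (π : B →+ A) (hπ : Function.Surjective π)
    (b : Cos Γ → A) (hb : ∀ x, b x + b (U • x) + b (U • U • x) = 0)
    (hfix : ∀ x, U • x = x → b x = 0) :
    ∃ b' : Cos Γ → B, (∀ x, π (b' x) = b x) ∧ ∀ x, b' x + b' (U • x) + b' (U • U • x) = 0 := by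
  classical
  obtain ⟨e, he⟩ := exists_injective_cos Γ
  let σ : A → B := Function.surjInv hπ
  have hσ : ∀ t, π (σ t) = t := Function.surjInv_eq hπ
  let b' : Cos Γ → B := fun x =>
    if U • x = x then 0
    else if e x < e (U • x) ∧ e x < e (U • U • x) then σ (b x)
    else if e (U • U • x) < e x ∧ e (U • U • x) < e (U • x) then σ (b x)
    else - σ (b (U • x)) - σ (b (U • U • x))
  have hUUU : ∀ x : Cos Γ, U • U • U • x = x := U_smul_U_smul_U_smul hneg
  have w1 : ∀ x, U • x = x → b' x = 0 := fun x h => if_pos h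
  have w2 : ∀ x y z, U • x = y → U • y = z → x ≠ y → e x < e y → e x < e z →
      b' x = σ (b x) := by
    intro x y z hxy hyz hne h1 h2
    subst hxy; subst hyz
    change (if U • x = x then 0 else if e x < e (U • x) ∧ e x < e (U • U • x) then σ (b x)
      else if e (U • U • x) < e x ∧ e (U • U • x) < e (U • x) then σ (b x)
      else - σ (b (U • x)) - σ (b (U • U • x))) = _
    rw [if_neg (fun h => hne h.symm), if_pos ⟨h1, h2⟩]
  have w3 : ∀ x y z, U • x = y → U • y = z → x ≠ y → ¬ (e x < e y ∧ e x < e z) →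
      e z < e x → e z < e y → b' x = σ (b x) := by
    intro x y z hxy hyz hne h0 h1 h2
    subst hxy; subst hyz
    change (if U • x = x then 0 else if e x < e (U • x) ∧ e x < e (U • U • x) then σ (b x)
      else if e (U • U • x) < e x ∧ e (U • U • x) < e (U • x) then σ (b x)
      else - σ (b (U • x)) - σ (b (U • U • x))) = _
    rw [if_neg (fun h => hne h.symm), if_neg h0, if_pos ⟨h1, h2⟩]
  have w4 : ∀ x y z, U • x = y → U • y = z → x ≠ y → ¬ (e x < e y ∧ e x < e z) →
      ¬ (e z < e x ∧ e z < e y) → b' x = - σ (b y) - σ (b z) := by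
    intro x y z hxy hyz hne h0 h1
    subst hxy; subst hyz
    change (if U • x = x then 0 else if e x < e (U • x) ∧ e x < e (U • U • x) then σ (b x)
      else if e (U • U • x) < e x ∧ e (U • U • x) < e (U • x) then σ (b x)
      else - σ (b (U • x)) - σ (b (U • U • x))) = _
    rw [if_neg (fun h => hne h.symm), if_neg h0, if_neg h1]
  -- a three-cycle
  have cyc : ∀ x y z : Cos Γ, U • x = y → U • y = z → U • z = x → x ≠ y →
      (π (b' x) = b x) ∧ b' x + b' y + b' z = 0 := by
    intro x y z hxy hyz hzx hne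
    have hyz' : y ≠ z := by
      intro h
      apply hne
      have h1 : U • y = y := hyz.trans h.symm
      rw [← hzx, ← h, h1]
    have hzx' : z ≠ x := by
      intro h
      apply hne
      rw [← hxy, ← h, hzx, h]
    have exy : e x ≠ e y := fun h => hne (he h)
    have eyz : e y ≠ e z := fun h => hyz' (he h)
    have ezx : e z ≠ e x := fun h => hzx' (he h)
    have hbx : b x + b y + b z = 0 := by
      have := hb x
      rwa [hxy, hyz] at this
    by_cases c1 : e x < e y ∧ e x < e z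
    · -- `x` is the minimum
      have hx := w2 x y z hxy hyz hne c1.1 c1.2
      have hy := w3 y z x hyz hzx hyz' (by omega) c1.1 c1.2
      have hz := w4 z x y hzx hxy hzx' (by omega) (by omega)
      refine ⟨by rw [hx]; exact hσ _, ?_⟩
      rw [hx, hy, hz]; abel
    · by_cases c2 : e z < e x ∧ e z < e y
      · -- `z` is the minimum
        have hx := w3 x y z hxy hyz hne c1 c2.1 c2.2
        have hy := w4 y z x hyz hzx hyz' (by omega) (by omega)
        have hz := w2 z x y hzx hxy hzx' c2.1 c2.2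
        refine ⟨by rw [hx]; exact hσ _, ?_⟩
        rw [hx, hy, hz]; abel
      · -- `y` is the minimum
        have hx := w4 x y z hxy hyz hne c1 c2
        have hy := w2 y z x hyz hzx hyz' (by omega) (by omega)
        have hz := w3 z x y hzx hxy hzx' (by omega) (by omega) (by omega)
        refine ⟨?_, ?_⟩
        · rw [hx, map_sub, map_neg, hσ, hσ]
          have : b x = - b y - b z := by
            rw [← sub_eq_zero, ← hbx]; abel
          rw [this]
        · rw [hx, hy, hz]; abel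
  refine ⟨b', fun x => ?_, fun x => ?_⟩
  · by_cases h1 : U • x = x
    · rw [w1 x h1, map_zero]
      exact (hfix x h1).symm
    · exact (cyc x (U • x) (U • U • x) rfl rfl (hUUU x) (fun h => h1 h.symm)).1
  · by_cases h1 : U • x = x
    · rw [h1, h1, w1 x h1, add_zero, add_zero]
    · exact (cyc x (U • x) (U • U • x) rfl rfl (hUUU x) (fun h => h1 h.symm)).2

/-! ### The pair of an induced cocycle -/

theorem cocOf_S_add (hneg : (-1 : SL(2, ℤ)) ∈ Γ) (χ : Additive Γ →+ A)
    (h₁ : χ (Additive.ofMul ⟨-1, hneg⟩) = 0) (x : Cos Γ) :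
    cocOf Γ χ S x + cocOf Γ χ S (S • x) = 0 := by
  have h := cocOf_isCoc χ S S x
  rw [S_mul_S, cocOf_neg_one hneg, h₁] at h
  rw [add_comm]; exact h.symm

theorem cocOf_U_add (hneg : (-1 : SL(2, ℤ)) ∈ Γ) (χ : Additive Γ →+ A)
    (h₁ : χ (Additive.ofMul ⟨-1, hneg⟩) = 0) (x : Cos Γ) :
    cocOf Γ χ U x + cocOf Γ χ U (U • x) + cocOf Γ χ U (U • U • x) = 0 := by
  have h := (cocOf_isCoc χ).pow U 3 x
  rw [U_cube, cocOf_neg_one hneg, h₁] at h
  rw [h]
  simp [Finset.sum_range_succ, pow_succ, mul_smul]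

theorem homOfCoc_congr {c c' : SL(2, ℤ) → Cos Γ → A} (hc : IsCoc Γ c) (hc' : IsCoc Γ c')
    (h : c = c') : homOfCoc c hc = homOfCoc c' hc' := by
  subst h; rfl

/-! ### Lifting homomorphisms -/

/-- **Lifting along a surjection of coefficient groups.**  If `χ : Γ → A` kills `-1` and its
induced cocycle vanishes at the fixed points of `S` and of `U`, then `χ` lifts to `B`. -/
theorem exists_lift_hom (hneg : (-1 : SL(2, ℤ)) ∈ Γ) (π : B →+ A) (hπ : Function.Surjective π)
    (χ : Additive Γ →+ A) (h₁ : χ (Additive.ofMul ⟨-1, hneg⟩) = 0)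
    (hS : ∀ x : Cos Γ, S • x = x → cocOf Γ χ S x = 0)
    (hU : ∀ x : Cos Γ, U • x = x → cocOf Γ χ U x = 0) :
    ∃ ψ : Additive Γ →+ B, π.comp ψ = χ := by
  obtain ⟨a', ha', ha'2⟩ := exists_lift_S hneg π hπ (cocOf Γ χ S) (cocOf_S_add hneg χ h₁) hS
  obtain ⟨b', hb', hb'2⟩ := exists_lift_U hneg π hπ (cocOf Γ χ U) (cocOf_U_add hneg χ h₁) hU
  obtain ⟨c, hc, hcS, hcU⟩ := exists_cocycle hneg a' b' ha'2 hb'2
  refine ⟨homOfCoc c hc, ?_⟩
  have heq : (fun g x => π (c g x)) = cocOf Γ χ :=
    (hc.map π).ext_S_U (cocOf_isCoc χ) (by funext x; rw [hcS]; exact ha' x)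
      (by funext x; rw [hcU]; exact hb' x)
  rw [← homOfCoc_map c hc π, homOfCoc_congr (hc.map π) (cocOf_isCoc χ) heq, homOfCoc_cocOf]

/-- Variant of `exists_lift_hom`: `χ` kills `-1` and every element of `Γ` which is conjugate in
`SL(2,ℤ)` to `S` or to `U = S * T`. -/
theorem exists_lift_hom_of_conj (hneg : (-1 : SL(2, ℤ)) ∈ Γ) (π : B →+ A)
    (hπ : Function.Surjective π) (χ : Additive Γ →+ A)
    (h₁ : χ (Additive.ofMul ⟨-1, hneg⟩) = 0)
    (hS : ∀ (g : SL(2, ℤ)) (h : g⁻¹ * S * g ∈ Γ), χ (Additive.ofMul ⟨g⁻¹ * S * g, h⟩) = 0)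
    (hU : ∀ (g : SL(2, ℤ)) (h : g⁻¹ * U * g ∈ Γ), χ (Additive.ofMul ⟨g⁻¹ * U * g, h⟩) = 0) :
    ∃ ψ : Additive Γ →+ B, π.comp ψ = χ := by
  refine exists_lift_hom hneg π hπ χ h₁ (fun x hx => ?_) (fun x hx => ?_)
  · have hmem : (rep Γ x)⁻¹ * S * rep Γ x ∈ Γ := by
      have := cocEl_mem (Γ := Γ) S x
      rwa [hx] at this
    rw [cocOf_of_smul_eq χ S x hx, ext_of_mem χ hmem]
    exact hS _ hmem
  · have hmem : (rep Γ x)⁻¹ * U * rep Γ x ∈ Γ := by
      have := cocEl_mem (Γ := Γ) U x
      rwa [hx] at this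
    rw [cocOf_of_smul_eq χ U x hx, ext_of_mem χ hmem]
    exact hU _ hmem

/-- **Integral lifts of characters mod `n`.** -/
theorem exists_int_lift (hneg : (-1 : SL(2, ℤ)) ∈ Γ) (n : ℕ) (χ : Additive Γ →+ ZMod n)
    (h₁ : χ (Additive.ofMul ⟨-1, hneg⟩) = 0)
    (hS : ∀ (g : SL(2, ℤ)) (h : g⁻¹ * S * g ∈ Γ), χ (Additive.ofMul ⟨g⁻¹ * S * g, h⟩) = 0)
    (hU : ∀ (g : SL(2, ℤ)) (h : g⁻¹ * (S * T) * g ∈ Γ),
      χ (Additive.ofMul ⟨g⁻¹ * (S * T) * g, h⟩) = 0) :
    ∃ ψ : Additive Γ →+ ℤ, ∀ γ, ((ψ γ : ℤ) : ZMod n) = χ γ := by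
  obtain ⟨ψ, hψ⟩ := exists_lift_hom_of_conj hneg (Int.castAddHom (ZMod n))
    (ZMod.intCast_surjective) χ h₁ hS hU
  exact ⟨ψ, fun γ => DFunLike.congr_fun hψ γ⟩

/-! ### Orbit sums -/

/-- For torsion-free coefficients, the sum of a cocycle over all cosets vanishes. -/
theorem IsCoc.sum_eq_zero [Fintype (Cos Γ)] [IsAddTorsionFree A] {c : SL(2, ℤ) → Cos Γ → A}
    (hc : IsCoc Γ c) (g : SL(2, ℤ)) : ∑ x, c g x = 0 := by
  have hF : ∀ g h : SL(2, ℤ), ∑ x, c (g * h) x = ∑ x, c g x + ∑ x, c h x := by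
    intro g h
    rw [← Equiv.sum_comp (MulAction.toPerm h) (c g), ← Finset.sum_add_distrib]
    exact Finset.sum_congr rfl fun x _ => hc g h x
  have h1 : ∑ x, c 1 x = 0 := by
    have := hF 1 1
    rw [mul_one] at this
    have h2 : ∑ x, c 1 x + 0 = ∑ x, c 1 x + ∑ x, c 1 x := by rw [add_zero]; exact this
    exact (add_left_cancel h2).symm
  have hneg1 : ∑ x, c (-1) x = 0 := by
    have := hF (-1) (-1)
    rw [show (-1 : SL(2, ℤ)) * -1 = 1 by simp, h1] at this
    have h2 : (2 : ℕ) • ∑ x, c (-1) x = 0 := by rw [two_nsmul]; exact this.symm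
    exact (nsmul_eq_zero_iff_right two_ne_zero).mp h2
  have hS0 : ∑ x, c S x = 0 := by
    have := hF S S
    rw [S_mul_S, hneg1] at this
    have h2 : (2 : ℕ) • ∑ x, c S x = 0 := by rw [two_nsmul]; exact this.symm
    exact (nsmul_eq_zero_iff_right two_ne_zero).mp h2
  have hU0 : ∑ x, c U x = 0 := by
    have h3 := hF (U * U) U
    rw [hF U U, show U * U * U = U ^ 3 by rw [pow_succ, pow_two], U_cube, hneg1] at h3
    have h2 : (3 : ℕ) • ∑ x, c U x = 0 := by
      rw [succ_nsmul, two_nsmul]; exact h3.symm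
    exact (nsmul_eq_zero_iff_right three_ne_zero).mp h2
  have hg : g ∈ Subgroup.closure ({S, U} : Set SL(2, ℤ)) := by rw [closure_S_U]; trivial
  induction hg using Subgroup.closure_induction with
  | mem x hx =>
    rcases hx with rfl | rfl
    · exact hS0
    · exact hU0
  | one => exact h1
  | mul x y _ _ hx hy => rw [hF, hx, hy, add_zero]
  | inv x _ hx =>
    have := hF x⁻¹ x
    rw [inv_mul_cancel, h1, hx, add_zero] at this
    exact this.symm

/-- The sum of an induced cocycle along a closed orbit is a value of the character. -/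
theorem sum_cocOf_orbit (χ : Additive Γ →+ A) (g : SL(2, ℤ)) (k : ℕ) (x : Cos Γ)
    (hx : g ^ k • x = x) :
    ∑ i ∈ Finset.range k, cocOf Γ χ g (g ^ i • x) = ext Γ χ ((rep Γ x)⁻¹ * g ^ k * rep Γ x) := by
  rw [← (cocOf_isCoc χ).pow, cocOf_of_smul_eq χ _ x hx]

/-! ### An integral homomorphism with `ψ T = 1` -/

/-- The value at `T ∈ Γ` of the homomorphism attached to a cocycle. -/
theorem homOfCoc_T {c : SL(2, ℤ) → Cos Γ → A} (hc : IsCoc Γ c) (hT : T ∈ Γ) :
    homOfCoc c hc (Additive.ofMul ⟨T, hT⟩) = c U (base Γ) - c S (base Γ) := by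
  rw [homOfCoc_apply]
  change c T (base Γ) = _
  rw [hc.apply_T, smul_base_of_mem hT]

/-- If `-1, T ∈ Γ` and `S ∉ Γ` there is a homomorphism `ψ : Γ → ℤ` with `ψ T = 1`. -/
theorem exists_hom_T_eq_one (hneg : (-1 : SL(2, ℤ)) ∈ Γ) (hT : T ∈ Γ) (hS : S ∉ Γ) :
    ∃ ψ : Additive Γ →+ ℤ, ψ (Additive.ofMul ⟨T, hT⟩) = 1 := by
  classical
  have hSb : S • base Γ ≠ base Γ := fun h => hS (mem_of_smul_base h)
  let a : Cos Γ → ℤ := fun x => if x = base Γ then -1 else if x = S • base Γ then 1 else 0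
  have va1 : a (base Γ) = -1 := if_pos rfl
  have va2 : a (S • base Γ) = 1 := by
    change (if S • base Γ = base Γ then (-1 : ℤ) else if S • base Γ = S • base Γ then 1 else 0) = 1
    rw [if_neg hSb, if_pos rfl]
  have va3 : ∀ x, x ≠ base Γ → x ≠ S • base Γ → a x = 0 := by
    intro x h1 h2
    change (if x = base Γ then (-1 : ℤ) else if x = S • base Γ then 1 else 0) = 0
    rw [if_neg h1, if_neg h2]
  have ha : ∀ x, a x + a (S • x) = 0 := by
    intro x
    by_cases h1 : x = base Γ
    · rw [h1, va1, va2]; norm_num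
    · by_cases h2 : x = S • base Γ
      · rw [h2, S_smul_S_smul hneg, va1, va2]; norm_num
      · have h3 : S • x ≠ base Γ := by
          intro h
          apply h2
          rw [← h, S_smul_S_smul hneg]
        have h4 : S • x ≠ S • base Γ := by
          intro h
          exact h1 (smul_left_cancel S h)
        rw [va3 x h1 h2, va3 _ h3 h4, add_zero]
  obtain ⟨c, hc, hcS, hcU⟩ := exists_cocycle hneg a (0 : Cos Γ → ℤ) ha (by intro x; simp)
  refine ⟨homOfCoc c hc, ?_⟩
  rw [homOfCoc_T hc hT, hcS, hcU, va1]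
  simp

end

end Fermat.Agent.S16.H97
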