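/-
S16 (lower bound, group-theory input), helper97.

`PSL(2,ℤ) ≅ C₂ * C₃` in the form of a universal property for `SL(2,ℤ)`:
for every group `M` and `s u : M` with `s ^ 2 = 1`, `u ^ 3 = 1` there is a (unique)
homomorphism `Φ : SL(2,ℤ) →* M` with `Φ S = s` and `Φ (S * T) = u`.

Proof: ping-pong for `S` and `R = T * S` acting on the upper half plane, with the sets
`{re < 0}` and `{0 < re}` (`Monoid.CoprodI.lift_injective_of_ping_pong`), and generation of
`SL(2,ℤ)` by `S`, `T` (`SpecialLinearGroup.SL2Z_generators`).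
-/
import Mathlib

set_option autoImplicit false

open scoped MatrixGroups Pointwise
open ModularGroup UpperHalfPlane

namespace Fermat.Agent.S16.H97

noncomputable section

/-! ### Homomorphisms out of a cyclic group `ZMod n` -/

section zmodHom

variable {M : Type*} [Group M]

/-- The homomorphism `Multiplicative (ZMod n) →* M` sending the generator to `m`,
when `m ^ n = 1`. -/
def zmodHom (n : ℕ) (m : M) (h : m ^ n = 1) : Multiplicative (ZMod n) →* M :=
  AddMonoidHom.toMultiplicativeLeft (ZMod.lift n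
    ⟨zmultiplesHom (Additive M) (Additive.ofMul m), by
      change (n : ℤ) • Additive.ofMul m = 0
      rw [natCast_zsmul, ← ofMul_pow, h]
      rfl⟩)

theorem zmodHom_ofAdd_intCast (n : ℕ) (m : M) (h : m ^ n = 1) (k : ℤ) :
    zmodHom n m h (Multiplicative.ofAdd (k : ZMod n)) = m ^ k := by
  rw [zmodHom, AddMonoidHom.coe_toMultiplicativeLeft]
  simp only [Function.comp_apply, toAdd_ofAdd, ZMod.lift_coe]
  rfl

theorem zmodHom_ofAdd_natCast (n : ℕ) (m : M) (h : m ^ n = 1) (k : ℕ) :
    zmodHom n m h (Multiplicative.ofAdd (k : ZMod n)) = m ^ k := by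
  have := zmodHom_ofAdd_intCast n m h (k : ℤ)
  simpa using this

theorem zmodHom_ofAdd_one (n : ℕ) (m : M) (h : m ^ n = 1) :
    zmodHom n m h (Multiplicative.ofAdd (1 : ZMod n)) = m := by
  have := zmodHom_ofAdd_natCast n m h 1
  simpa using this

end zmodHom

/-! ### The action on the upper half plane -/

section action

/-- The element `R = T * S` of order `3` in `PSL(2,ℤ)`. -/
def Rel : SL(2, ℤ) := T * S

theorem S_mul_S : (S * S : SL(2, ℤ)) = -1 := by decide

theorem Rel_cube : (Rel ^ 3 : SL(2, ℤ)) = -1 := by decide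

theorem neg_one_smul_uhp (z : ℍ) : (-1 : SL(2, ℤ)) • z = z := by
  rw [SL_neg_smul, one_smul]

theorem re_S_smul (z : ℍ) : (S • z).re = -z.re / Complex.normSq z := by
  rw [modular_S_smul]
  change ((-(z : ℂ))⁻¹).re = _
  rw [Complex.inv_re]
  simp [neg_div]

theorem re_Rel_smul (z : ℍ) : (Rel • z).re = 1 - z.re / Complex.normSq z := by
  rw [Rel, mul_smul, modular_T_smul]
  rw [vadd_re, re_S_smul]
  ring

theorem normSq_pos_uhp (z : ℍ) : 0 < Complex.normSq (z : ℂ) :=
  Complex.normSq_pos.mpr z.ne_zero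

theorem re_S_smul_neg {z : ℍ} (hz : 0 < z.re) : (S • z).re < 0 := by
  rw [re_S_smul]
  exact div_neg_of_neg_of_pos (by linarith) (normSq_pos_uhp z)

theorem one_lt_re_Rel_smul {z : ℍ} (hz : z.re < 0) : 1 < (Rel • z).re := by
  rw [re_Rel_smul]
  have : z.re / Complex.normSq z < 0 := div_neg_of_neg_of_pos hz (normSq_pos_uhp z)
  linarith

theorem re_Rel_smul_pos {z : ℍ} (hz : 1 < z.re) : 0 < (Rel • z).re := by
  rw [re_Rel_smul]
  have h1 : z.re < Complex.normSq z := by
    rw [Complex.normSq_apply]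
    have him : 0 < z.im := z.im_pos
    change z.re < z.re * z.re + z.im * z.im
    nlinarith
  have : z.re / Complex.normSq z < 1 := (div_lt_one (normSq_pos_uhp z)).mpr h1
  linarith

end action

/-! ### Ping-pong -/

section pingpong

/-- The action on the upper half plane as a homomorphism to the permutation group. -/
def rho : SL(2, ℤ) →* Equiv.Perm ℍ := MulAction.toPermHom SL(2, ℤ) ℍ

theorem rho_apply (g : SL(2, ℤ)) (z : ℍ) : rho g z = g • z := rfl

theorem rho_neg_one : rho (-1) = 1 := by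
  ext1 z
  rw [rho_apply, neg_one_smul_uhp]
  rfl

theorem rho_S_sq : rho S ^ 2 = 1 := by
  rw [← map_pow, pow_two, S_mul_S, rho_neg_one]

theorem rho_Rel_cube : rho Rel ^ 3 = 1 := by
  rw [← map_pow, Rel_cube, rho_neg_one]

/-- The two cyclic factors `C₂`, `C₃`. -/
abbrev Cyc (i : Fin 2) : Type := Multiplicative (ZMod (i.val + 2))

/-- The two generators `S`, `R = T * S`. -/
def gen : Fin 2 → SL(2, ℤ) := ![S, Rel]

theorem rho_gen_pow (i : Fin 2) : rho (gen i) ^ (i.val + 2) = 1 := by
  fin_cases i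
  · exact rho_S_sq
  · exact rho_Rel_cube

/-- The homomorphisms from the cyclic factors to the permutation group of `ℍ`. -/
def fHom (i : Fin 2) : Cyc i →* Equiv.Perm ℍ :=
  zmodHom (i.val + 2) (rho (gen i)) (rho_gen_pow i)

/-- The ping-pong sets. -/
def pp : Fin 2 → Set ℍ := ![{z | z.re < 0}, {z | 0 < z.re}]

theorem pp_nonempty (i : Fin 2) : (pp i).Nonempty := by
  fin_cases i
  · refine ⟨⟨⟨-1, 1⟩, by simp⟩, ?_⟩
    change (-1 : ℝ) < 0
    norm_num
  · refine ⟨⟨⟨1, 1⟩, by simp⟩, ?_⟩
    change (0 : ℝ) < 1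
    norm_num

theorem pp_disjoint : Pairwise (Function.onFun Disjoint pp) := by
  intro i j hij
  fin_cases i <;> fin_cases j
  · exact absurd rfl hij
  · rw [Function.onFun, Set.disjoint_left]
    intro z (h1 : z.re < 0) (h2 : 0 < z.re)
    linarith
  · rw [Function.onFun, Set.disjoint_left]
    intro z (h1 : 0 < z.re) (h2 : z.re < 0)
    linarith
  · exact absurd rfl hij

theorem cyc_two_cases : ∀ h : Multiplicative (ZMod 2), h ≠ 1 → h = Multiplicative.ofAdd 1 := by
  decide

theorem cyc_three_cases : ∀ h : Multiplicative (ZMod 3), h ≠ 1 →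
    h = Multiplicative.ofAdd 1 ∨ h = Multiplicative.ofAdd 2 := by
  decide

theorem pp_pingpong :
    Pairwise fun i j => ∀ h : Cyc i, h ≠ 1 → fHom i h • pp j ⊆ pp i := by
  intro i j hij
  fin_cases i <;> fin_cases j
  · exact absurd rfl hij
  · -- `S` maps `{0 < re}` into `{re < 0}`
    intro h hh
    have hk : h = Multiplicative.ofAdd (1 : ZMod 2) := cyc_two_cases h hh
    have h1 : fHom 0 (Multiplicative.ofAdd (1 : ZMod 2)) = rho S :=
      zmodHom_ofAdd_one _ _ _
    rintro _ ⟨z, hz, rfl⟩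
    change ((fHom 0 h) z).re < 0
    rw [hk, h1, rho_apply]
    exact re_S_smul_neg hz
  · -- `R`, `R²` map `{re < 0}` into `{0 < re}`
    intro h hh
    rcases cyc_three_cases h hh with hk | hk
    · have h1 : fHom 1 (Multiplicative.ofAdd (1 : ZMod 3)) = rho Rel :=
        zmodHom_ofAdd_one _ _ _
      rintro _ ⟨z, hz, rfl⟩
      change 0 < ((fHom 1 h) z).re
      rw [hk, h1, rho_apply]
      have := one_lt_re_Rel_smul hz
      linarith
    · have h1 : fHom 1 (Multiplicative.ofAdd (2 : ZMod 3)) = rho Rel ^ 2 :=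
        zmodHom_ofAdd_natCast _ _ _ 2
      rintro _ ⟨z, hz, rfl⟩
      change 0 < ((fHom 1 h) z).re
      rw [hk, h1, pow_two, Equiv.Perm.mul_apply, rho_apply, rho_apply]
      exact re_Rel_smul_pos (one_lt_re_Rel_smul hz)
  · exact absurd rfl hij

/-- **Ping-pong**: the free product `C₂ * C₃` embeds into the permutation group of `ℍ`. -/
theorem lift_fHom_injective : Function.Injective (Monoid.CoprodI.lift fHom) := by
  refine Monoid.CoprodI.lift_injective_of_ping_pong fHom (Or.inr ⟨1, ?_⟩) pp pp_nonempty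
    pp_disjoint pp_pingpong
  change 3 ≤ Cardinal.mk (Multiplicative (ZMod 3))
  rw [Cardinal.mk_fintype]
  have : Fintype.card (Multiplicative (ZMod 3)) = 3 := by
    rw [Fintype.card_multiplicative, ZMod.card]
  rw [this]
  norm_num

end pingpong

/-! ### The universal property -/

section universal

theorem T_eq_Rel_mul : T = Rel * S⁻¹ := by simp [Rel]

/-- The word representing `S`. -/
def wS : Monoid.CoprodI Cyc := Monoid.CoprodI.of (i := 0) (Multiplicative.ofAdd 1)

/-- The word representing `R = T * S`. -/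
def wR : Monoid.CoprodI Cyc := Monoid.CoprodI.of (i := 1) (Multiplicative.ofAdd 1)

theorem lift_wS : Monoid.CoprodI.lift fHom wS = rho S := by
  rw [wS, Monoid.CoprodI.lift_of]
  exact zmodHom_ofAdd_one _ _ _

theorem lift_wR : Monoid.CoprodI.lift fHom wR = rho Rel := by
  rw [wR, Monoid.CoprodI.lift_of]
  exact zmodHom_ofAdd_one _ _ _

theorem rho_mem_range (g : SL(2, ℤ)) : rho g ∈ (Monoid.CoprodI.lift fHom).range := by
  have hg : g ∈ Subgroup.closure ({S, T} : Set SL(2, ℤ)) := by
    rw [SpecialLinearGroup.SL2Z_generators]; trivial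
  induction hg using Subgroup.closure_induction with
  | mem x hx =>
    rcases hx with rfl | rfl
    · exact ⟨wS, lift_wS⟩
    · refine ⟨wR * wS⁻¹, ?_⟩
      rw [map_mul, map_inv, lift_wS, lift_wR, ← map_inv, ← map_mul, ← T_eq_Rel_mul]
  | one => rw [map_one]; exact one_mem _
  | mul x y _ _ hx hy => rw [map_mul]; exact mul_mem hx hy
  | inv x _ hx => rw [map_inv]; exact inv_mem hx

/-- A word representing `g`. -/
def toCoprodFun (g : SL(2, ℤ)) : Monoid.CoprodI Cyc := (rho_mem_range g).choose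

theorem lift_toCoprodFun (g : SL(2, ℤ)) : Monoid.CoprodI.lift fHom (toCoprodFun g) = rho g :=
  (rho_mem_range g).choose_spec

/-- The homomorphism `SL(2,ℤ) → C₂ * C₃` (with kernel `{±1}`). -/
def toCoprod : SL(2, ℤ) →* Monoid.CoprodI Cyc where
  toFun := toCoprodFun
  map_one' := lift_fHom_injective (by rw [lift_toCoprodFun, map_one, map_one])
  map_mul' g h := lift_fHom_injective (by
    rw [map_mul, lift_toCoprodFun, lift_toCoprodFun, lift_toCoprodFun, map_mul])

theorem lift_toCoprod (g : SL(2, ℤ)) : Monoid.CoprodI.lift fHom (toCoprod g) = rho g :=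
  lift_toCoprodFun g

theorem toCoprod_S : toCoprod S = wS :=
  lift_fHom_injective (by rw [lift_toCoprod, lift_wS])

theorem toCoprod_Rel : toCoprod Rel = wR :=
  lift_fHom_injective (by rw [lift_toCoprod, lift_wR])

/-- **Universal property of `PSL(2,ℤ) = C₂ * C₃`**, generators `S` and `R = T * S`. -/
theorem exists_monoidHom_S_Rel {M : Type*} [Group M] (s r : M) (hs : s ^ 2 = 1) (hr : r ^ 3 = 1) :
    ∃ Φ : SL(2, ℤ) →* M, Φ S = s ∧ Φ Rel = r := by
  let m : Fin 2 → M := ![s, r]
  have hm : ∀ i : Fin 2, m i ^ (i.val + 2) = 1 := by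
    intro i
    fin_cases i
    · exact hs
    · exact hr
  let gM : ∀ i : Fin 2, Cyc i →* M := fun i => zmodHom (i.val + 2) (m i) (hm i)
  refine ⟨(Monoid.CoprodI.lift gM).comp toCoprod, ?_, ?_⟩
  · rw [MonoidHom.comp_apply, toCoprod_S, wS, Monoid.CoprodI.lift_of]
    exact zmodHom_ofAdd_one _ _ _
  · rw [MonoidHom.comp_apply, toCoprod_Rel, wR, Monoid.CoprodI.lift_of]
    exact zmodHom_ofAdd_one _ _ _

/-- **Universal property of `PSL(2,ℤ) = C₂ * C₃`**, generators `S` and `U = S * T`. -/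
theorem exists_monoidHom_S_ST {M : Type*} [Group M] (s u : M) (hs : s ^ 2 = 1) (hu : u ^ 3 = 1) :
    ∃ Φ : SL(2, ℤ) →* M, Φ S = s ∧ Φ (S * T) = u := by
  have hr : (s⁻¹ * u * s) ^ 3 = 1 := by
    have : (s⁻¹ * u * s) ^ 3 = s⁻¹ * u ^ 3 * s := by
      simp only [pow_succ, pow_zero, one_mul, mul_assoc, mul_inv_cancel_left]
    rw [this, hu, mul_one, inv_mul_cancel]
  obtain ⟨Φ, h1, h2⟩ := exists_monoidHom_S_Rel s (s⁻¹ * u * s) hs hr
  refine ⟨Φ, h1, ?_⟩
  have h3 : S * T = S * Rel * S⁻¹ := by simp [Rel, mul_assoc]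
  rw [h3, map_mul, map_mul, map_inv, h1, h2]
  group

/-- A homomorphism out of `SL(2,ℤ)` is determined by its values at `S` and `S * T`. -/
theorem monoidHom_ext_S_ST {M : Type*} [Group M] {Φ Ψ : SL(2, ℤ) →* M} (hS : Φ S = Ψ S)
    (hU : Φ (S * T) = Ψ (S * T)) : Φ = Ψ := by
  have hT : Φ T = Ψ T := by
    have h3 : T = S⁻¹ * (S * T) := by group
    rw [h3, map_mul Φ, map_mul Ψ, map_inv, map_inv, hS, hU]
  apply MonoidHom.eq_of_eqOn_dense SpecialLinearGroup.SL2Z_generators
  rintro x (rfl | rfl)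
  · exact hS
  · exact hT

end universal

end

end Fermat.Agent.S16.H97
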