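/-
S16 (lower bound, group-theory input), helper97.

Cocycles of `SL(2,ℤ)` with values in functions on a coset space `SL(2,ℤ) ⧸ Γ` (`-1 ∈ Γ`),
with coefficients in an arbitrary abelian group `A`:

* `exists_cocycle`: existence of a cocycle with prescribed values `a` at `S` and `b` at
  `U = S * T`, as soon as `(1 + S) a = 0` and `(1 + U + U²) b = 0` (this uses the presentation
  `PSL(2,ℤ) = C₂ * C₃`, `Presentation.lean`);
* `IsCoc.ext_S_U`: a cocycle is determined by its values at `S` and `U`;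
* `homOfCoc`: the homomorphism `Γ → A`, `γ ↦ c γ (Γ)` (Shapiro's lemma);
* `cocOf`: the cocycle induced by a homomorphism `Γ → A`, and `homOfCoc_cocOf`;
* orbit-sum formulas.

Convention (the same as in the landed S21 files): `c (g * h) x = c g (h • x) + c h x`.
-/
import Fermat.Agent.S16.H97.Presentation

set_option autoImplicit false

open scoped MatrixGroups
open ModularGroup

namespace Fermat.Agent.S16.H97

noncomputable section

variable (Γ : Subgroup SL(2, ℤ)) {A : Type*} [AddCommGroup A]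

/-- The coset space `SL(2,ℤ) ⧸ Γ`. -/
abbrev Cos : Type := SL(2, ℤ) ⧸ Γ

/-- The base coset. -/
abbrev base : Cos Γ := QuotientGroup.mk 1

/-- The element `U = S * T` (of order `3` in `PSL(2,ℤ)`). -/
abbrev U : SL(2, ℤ) := S * T

theorem U_cube : (U ^ 3 : SL(2, ℤ)) = -1 := by decide

theorem T_eq_S_inv_mul_U : T = S⁻¹ * U := by simp [U]

theorem closure_S_U : Subgroup.closure ({S, U} : Set SL(2, ℤ)) = ⊤ := by
  rw [eq_top_iff, ← SpecialLinearGroup.SL2Z_generators, Subgroup.closure_le]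
  have hS : S ∈ Subgroup.closure ({S, U} : Set SL(2, ℤ)) := Subgroup.subset_closure (by simp)
  have hU : U ∈ Subgroup.closure ({S, U} : Set SL(2, ℤ)) := Subgroup.subset_closure (by simp)
  rintro g (rfl | rfl)
  · exact hS
  · rw [T_eq_S_inv_mul_U]
    exact Subgroup.mul_mem _ (Subgroup.inv_mem _ hS) hU

variable {Γ}

theorem neg_one_smul_cos (hneg : (-1 : SL(2, ℤ)) ∈ Γ) (x : Cos Γ) : (-1 : SL(2, ℤ)) • x = x := by
  induction x using QuotientGroup.induction_on with
  | H g =>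
    change (QuotientGroup.mk (-1 * g) : Cos Γ) = QuotientGroup.mk g
    apply QuotientGroup.eq.mpr
    have : (-1 * g)⁻¹ * g = -1 := by simp
    rw [this]
    exact hneg

theorem S_smul_S_smul (hneg : (-1 : SL(2, ℤ)) ∈ Γ) (x : Cos Γ) : S • S • x = x := by
  rw [← mul_smul, S_mul_S, neg_one_smul_cos hneg]

theorem U_smul_U_smul_U_smul (hneg : (-1 : SL(2, ℤ)) ∈ Γ) (x : Cos Γ) : U • U • U • x = x := by
  rw [← mul_smul, ← mul_smul, show U * U * U = U ^ 3 by rw [pow_succ, pow_two], U_cube, neg_one_smul_cos hneg]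

theorem smul_base_of_mem {γ : SL(2, ℤ)} (hγ : γ ∈ Γ) : γ • base Γ = base Γ := by
  change (QuotientGroup.mk (γ * 1) : Cos Γ) = QuotientGroup.mk 1
  rw [mul_one]
  apply QuotientGroup.eq.mpr
  simpa using Γ.inv_mem hγ

theorem mem_of_smul_base {γ : SL(2, ℤ)} (h : γ • base Γ = base Γ) : γ ∈ Γ := by
  change (QuotientGroup.mk (γ * 1) : Cos Γ) = QuotientGroup.mk 1 at h
  rw [mul_one] at h
  have := QuotientGroup.eq.mp h
  simpa using Γ.inv_mem this

/-! ### Cocycles -/

variable (Γ) in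
/-- Cocycles with values in functions on the coset space. -/
def IsCoc (c : SL(2, ℤ) → Cos Γ → A) : Prop :=
  ∀ g h x, c (g * h) x = c g (h • x) + c h x

namespace IsCoc

variable {c : SL(2, ℤ) → Cos Γ → A}

theorem one (hc : IsCoc Γ c) (x : Cos Γ) : c 1 x = 0 := by
  have h := hc 1 1 x
  rw [mul_one, one_smul] at h
  have h2 : c 1 x + 0 = c 1 x + c 1 x := by rw [add_zero]; exact h
  exact (add_left_cancel h2).symm

theorem inv (hc : IsCoc Γ c) (g : SL(2, ℤ)) (x : Cos Γ) : c g⁻¹ x = - c g (g⁻¹ • x) := by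
  have h := hc g g⁻¹ x
  rw [mul_inv_cancel, hc.one] at h
  exact eq_neg_of_add_eq_zero_right h.symm

theorem pow (hc : IsCoc Γ c) (g : SL(2, ℤ)) (n : ℕ) (x : Cos Γ) :
    c (g ^ n) x = ∑ i ∈ Finset.range n, c g (g ^ i • x) := by
  induction n generalizing x with
  | zero => simp [hc.one]
  | succ n ih =>
    rw [pow_succ, hc, ih, Finset.sum_range_succ', pow_zero, one_smul]
    congr 1
    refine Finset.sum_congr rfl fun i _ => ?_
    rw [pow_succ, mul_smul]

/-- Postcomposition with a homomorphism of coefficient groups. -/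
theorem map {B : Type*} [AddCommGroup B] (hc : IsCoc Γ c) (f : A →+ B) :
    IsCoc Γ (fun g x => f (c g x)) := by
  intro g h x
  change f (c (g * h) x) = f (c g (h • x)) + f (c h x)
  rw [hc, map_add]

/-- Two cocycles that agree on a generating set are equal. -/
theorem ext_of_closure {c' : SL(2, ℤ) → Cos Γ → A} (hc : IsCoc Γ c) (hc' : IsCoc Γ c')
    {s : Set SL(2, ℤ)} (hs : Subgroup.closure s = ⊤) (h : ∀ g ∈ s, c g = c' g) : c = c' := by
  funext g
  have hg : g ∈ Subgroup.closure s := by rw [hs]; trivial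
  induction hg using Subgroup.closure_induction with
  | mem x hx => exact h x hx
  | one => funext x; rw [hc.one, hc'.one]
  | mul x y _ _ hx hy => funext z; rw [hc, hc', hx, hy]
  | inv x _ hx => funext z; rw [hc.inv, hc'.inv, hx]

/-- A cocycle is determined by its values at `S` and `U = S * T`. -/
theorem ext_S_U {c' : SL(2, ℤ) → Cos Γ → A} (hc : IsCoc Γ c) (hc' : IsCoc Γ c')
    (hS : c S = c' S) (hU : c U = c' U) : c = c' := by
  refine hc.ext_of_closure hc' closure_S_U ?_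
  rintro g (rfl | rfl)
  · exact hS
  · exact hU

/-- The value at `T` in terms of the values at `S` and `U`. -/
theorem apply_T (hc : IsCoc Γ c) (x : Cos Γ) : c T x = c U x - c S (T • x) := by
  have h := hc S⁻¹ U x
  rw [← T_eq_S_inv_mul_U, hc.inv] at h
  have h2 : S⁻¹ • U • x = T • x := by rw [← mul_smul, ← T_eq_S_inv_mul_U]
  rw [h, h2]
  abel

end IsCoc

/-! ### Shapiro's lemma: from cocycles to homomorphisms of `Γ` -/

/-- The homomorphism `Γ → A` attached to a cocycle: `γ ↦ c γ (Γ)`. -/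
def homOfCoc (c : SL(2, ℤ) → Cos Γ → A) (hc : IsCoc Γ c) : Additive Γ →+ A where
  toFun γ := c (γ.toMul : SL(2, ℤ)) (base Γ)
  map_zero' := hc.one _
  map_add' γ γ' := by
    change c ((γ.toMul : SL(2, ℤ)) * (γ'.toMul : SL(2, ℤ))) (base Γ) = _
    rw [hc, smul_base_of_mem (γ'.toMul).2]

@[simp]
theorem homOfCoc_apply (c : SL(2, ℤ) → Cos Γ → A) (hc : IsCoc Γ c) (γ : Γ) :
    homOfCoc c hc (Additive.ofMul γ) = c (γ : SL(2, ℤ)) (base Γ) := rfl

theorem homOfCoc_map {B : Type*} [AddCommGroup B] (c : SL(2, ℤ) → Cos Γ → A) (hc : IsCoc Γ c)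
    (f : A →+ B) : homOfCoc (fun g x => f (c g x)) (hc.map f) = f.comp (homOfCoc c hc) := rfl

/-- The value of the attached homomorphism at a conjugate `r⁻¹ g r ∈ Γ`. -/
theorem homOfCoc_conj (c : SL(2, ℤ) → Cos Γ → A) (hc : IsCoc Γ c) (g r : SL(2, ℤ))
    (h : r⁻¹ * g * r ∈ Γ) :
    homOfCoc c hc (Additive.ofMul ⟨r⁻¹ * g * r, h⟩) = c g (r • base Γ) := by
  rw [homOfCoc_apply]
  change c (r⁻¹ * g * r) (base Γ) = _
  have hfix : g • r • base Γ = r • base Γ := by
    have := smul_base_of_mem h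
    rw [mul_smul, mul_smul, inv_smul_eq_iff] at this
    exact this
  rw [hc, hc, hc.inv, hfix, inv_smul_smul]
  abel

/-! ### The cocycle induced by a homomorphism of `Γ` -/

section induced

variable (Γ) in
open Classical in
/-- Extension by zero of an additive character of `Γ` to a function on `SL(2,ℤ)`. -/
def ext (φ : Additive Γ →+ A) (g : SL(2, ℤ)) : A :=
  if h : g ∈ Γ then φ (Additive.ofMul ⟨g, h⟩) else 0

theorem ext_of_mem (φ : Additive Γ →+ A) {g : SL(2, ℤ)} (h : g ∈ Γ) :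
    ext Γ φ g = φ (Additive.ofMul ⟨g, h⟩) := by
  simp [ext, h]

theorem ext_mul (φ : Additive Γ →+ A) {a b : SL(2, ℤ)} (ha : a ∈ Γ) (hb : b ∈ Γ) :
    ext Γ φ (a * b) = ext Γ φ a + ext Γ φ b := by
  rw [ext_of_mem φ ha, ext_of_mem φ hb, ext_of_mem φ (Γ.mul_mem ha hb), ← map_add]
  rfl

theorem ext_one (φ : Additive Γ →+ A) : ext Γ φ 1 = 0 := by
  have h := ext_mul φ Γ.one_mem Γ.one_mem
  rw [mul_one] at h
  have h2 : ext Γ φ 1 + 0 = ext Γ φ 1 + ext Γ φ 1 := by rw [add_zero]; exact h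
  exact (add_left_cancel h2).symm

theorem ext_inv (φ : Additive Γ →+ A) {a : SL(2, ℤ)} (ha : a ∈ Γ) :
    ext Γ φ a⁻¹ = - ext Γ φ a := by
  have h := ext_mul φ ha (Γ.inv_mem ha)
  rw [mul_inv_cancel, ext_one] at h
  exact eq_neg_of_add_eq_zero_right h.symm

/-- `ext φ` is invariant under conjugation by elements of `Γ`. -/
theorem ext_conj (φ : Additive Γ →+ A) {r γ : SL(2, ℤ)} (hr : r ∈ Γ) (hγ : γ ∈ Γ) :
    ext Γ φ (r⁻¹ * γ * r) = ext Γ φ γ := by
  rw [ext_mul φ (Γ.mul_mem (Γ.inv_mem hr) hγ) hr, ext_mul φ (Γ.inv_mem hr) hγ, ext_inv φ hr]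
  abel

variable (Γ) in
/-- A set-theoretic section of `SL(2,ℤ) → SL(2,ℤ) ⧸ Γ`. -/
def rep (x : Cos Γ) : SL(2, ℤ) := Quotient.out x

theorem mk_rep (x : Cos Γ) : (QuotientGroup.mk (rep Γ x) : Cos Γ) = x := QuotientGroup.out_eq' x

theorem rep_smul_base (x : Cos Γ) : rep Γ x • base Γ = x := by
  change (QuotientGroup.mk (rep Γ x * 1) : Cos Γ) = x
  rw [mul_one, mk_rep]

theorem rep_base_mem : rep Γ (base Γ) ∈ Γ := mem_of_smul_base (rep_smul_base _)

theorem smul_eq_mk (g : SL(2, ℤ)) (x : Cos Γ) :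
    g • x = (QuotientGroup.mk (g * rep Γ x) : Cos Γ) := by
  conv_lhs => rw [← mk_rep x]
  rfl

theorem cocEl_mem (g : SL(2, ℤ)) (x : Cos Γ) : (rep Γ (g • x))⁻¹ * g * rep Γ x ∈ Γ := by
  rw [mul_assoc]
  apply QuotientGroup.eq.mp
  rw [mk_rep, smul_eq_mk]

variable (Γ) in
/-- The cocycle induced by an additive character `φ` of `Γ`. -/
def cocOf (φ : Additive Γ →+ A) (g : SL(2, ℤ)) (x : Cos Γ) : A :=
  ext Γ φ ((rep Γ (g • x))⁻¹ * g * rep Γ x)

theorem cocOf_isCoc (φ : Additive Γ →+ A) : IsCoc Γ (cocOf Γ φ) := by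
  intro g h x
  simp only [cocOf]
  rw [← ext_mul φ (cocEl_mem g (h • x)) (cocEl_mem h x)]
  congr 1
  rw [mul_smul]
  group

/-- If `z` fixes the coset `x` then the induced cocycle at `z` is a conjugate value of `φ`. -/
theorem cocOf_of_smul_eq (φ : Additive Γ →+ A) (z : SL(2, ℤ)) (x : Cos Γ) (hz : z • x = x) :
    cocOf Γ φ z x = ext Γ φ ((rep Γ x)⁻¹ * z * rep Γ x) := by
  simp only [cocOf, hz]

/-- At the base coset the induced cocycle recovers `φ`. -/
theorem cocOf_base (φ : Additive Γ →+ A) {γ : SL(2, ℤ)} (hγ : γ ∈ Γ) :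
    cocOf Γ φ γ (base Γ) = ext Γ φ γ := by
  rw [cocOf_of_smul_eq φ γ _ (smul_base_of_mem hγ), ext_conj φ rep_base_mem hγ]

/-- **Shapiro**: the homomorphism attached to the induced cocycle is the original one. -/
theorem homOfCoc_cocOf (φ : Additive Γ →+ A) : homOfCoc (cocOf Γ φ) (cocOf_isCoc φ) = φ := by
  refine AddMonoidHom.ext fun γ => ?_
  change cocOf Γ φ ((Additive.toMul γ : Γ) : SL(2, ℤ)) (base Γ) = φ γ
  rw [cocOf_base φ (Additive.toMul γ).2, ext_of_mem φ (Additive.toMul γ).2]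
  rfl

theorem cocOf_neg_one (hneg : (-1 : SL(2, ℤ)) ∈ Γ) (φ : Additive Γ →+ A) (x : Cos Γ) :
    cocOf Γ φ (-1) x = φ (Additive.ofMul ⟨-1, hneg⟩) := by
  rw [cocOf_of_smul_eq φ _ x (neg_one_smul_cos hneg x)]
  have : (rep Γ x)⁻¹ * (-1) * rep Γ x = -1 := by simp
  rw [this, ext_of_mem φ hneg]

end induced

/-! ### Existence of cocycles with prescribed values at `S` and `U` -/

section existence

/-- The permutation `(x, t) ↦ (g • x, t + v x)` of `(SL(2,ℤ) ⧸ Γ) × A`. -/
def aff (g : SL(2, ℤ)) (v : Cos Γ → A) : Equiv.Perm (Cos Γ × A) where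
  toFun p := (g • p.1, p.2 + v p.1)
  invFun p := (g⁻¹ • p.1, p.2 - v (g⁻¹ • p.1))
  left_inv p := by simp
  right_inv p := by simp

theorem aff_apply (g : SL(2, ℤ)) (v : Cos Γ → A) (p : Cos Γ × A) :
    aff g v p = (g • p.1, p.2 + v p.1) := rfl

theorem aff_mul (g h : SL(2, ℤ)) (v w : Cos Γ → A) :
    aff g v * aff h w = aff (g * h) (fun x => v (h • x) + w x) := by
  refine Equiv.ext fun p => ?_
  rw [Equiv.Perm.mul_apply, aff_apply, aff_apply, aff_apply]
  refine Prod.ext ?_ ?_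
  · exact (mul_smul g h p.1).symm
  · change p.2 + w p.1 + v (h • p.1) = p.2 + (v (h • p.1) + w p.1)
    abel

theorem aff_one : aff (1 : SL(2, ℤ)) (0 : Cos Γ → A) = 1 := by
  refine Equiv.ext fun p => ?_
  rw [aff_apply]
  simp

theorem aff_neg_one (hneg : (-1 : SL(2, ℤ)) ∈ Γ) : aff (-1 : SL(2, ℤ)) (0 : Cos Γ → A) = 1 := by
  refine Equiv.ext fun p => ?_
  rw [aff_apply, neg_one_smul_cos hneg]
  simp

theorem aff_inv (g : SL(2, ℤ)) (v : Cos Γ → A) :
    (aff g v)⁻¹ = aff g⁻¹ (fun x => - v (g⁻¹ • x)) := by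
  rw [inv_eq_iff_mul_eq_one, aff_mul]
  have : (fun x : Cos Γ => v (g⁻¹ • x) + -v (g⁻¹ • x)) = 0 := by
    funext x; simp
  rw [this, mul_inv_cancel, aff_one]

theorem aff_right_injective (g : SL(2, ℤ)) {v w : Cos Γ → A} (h : aff g v = aff g w) : v = w := by
  funext x
  have := congrArg Prod.snd (DFunLike.congr_fun h (x, (0 : A)))
  simpa [aff_apply] using this

/-- **Existence of cocycles with a prescribed pair of values at `S` and `U = S * T`.** -/
theorem exists_cocycle (hneg : (-1 : SL(2, ℤ)) ∈ Γ) (a b : Cos Γ → A)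
    (ha : ∀ x, a x + a (S • x) = 0) (hb : ∀ x, b x + b (U • x) + b (U • U • x) = 0) :
    ∃ c : SL(2, ℤ) → Cos Γ → A, IsCoc Γ c ∧ c S = a ∧ c U = b := by
  have hs : (aff S a : Equiv.Perm (Cos Γ × A)) ^ 2 = 1 := by
    rw [pow_two, aff_mul, S_mul_S]
    have : (fun x : Cos Γ => a (S • x) + a x) = 0 := by
      funext x; rw [add_comm]; exact ha x
    rw [this, aff_neg_one hneg]
  have hu : (aff U b : Equiv.Perm (Cos Γ × A)) ^ 3 = 1 := by
    rw [pow_succ, pow_two, aff_mul, aff_mul, show U * U * U = U ^ 3 by rw [pow_succ, pow_two],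
      U_cube]
    have : (fun x : Cos Γ => b (U • U • x) + b (U • x) + b x) = 0 := by
      funext x
      have := hb x
      change b (U • U • x) + b (U • x) + b x = 0
      rw [← this]; abel
    rw [this, aff_neg_one hneg]
  obtain ⟨Φ, hΦS, hΦU⟩ := exists_monoidHom_S_ST (aff S a) (aff U b) hs hu
  have key : ∀ g : SL(2, ℤ), ∃ v : Cos Γ → A, Φ g = aff g v := by
    intro g
    have hg : g ∈ Subgroup.closure ({S, U} : Set SL(2, ℤ)) := by rw [closure_S_U]; trivial
    induction hg using Subgroup.closure_induction with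
    | mem x hx =>
      rcases hx with rfl | rfl
      · exact ⟨a, hΦS⟩
      · exact ⟨b, hΦU⟩
    | one => exact ⟨0, by rw [map_one, aff_one]⟩
    | mul x y _ _ hx hy =>
      obtain ⟨v, hv⟩ := hx
      obtain ⟨w, hw⟩ := hy
      exact ⟨_, by rw [map_mul, hv, hw, aff_mul]⟩
    | inv x _ hx =>
      obtain ⟨v, hv⟩ := hx
      exact ⟨_, by rw [map_inv, hv, aff_inv]⟩
  choose c hc using key
  refine ⟨c, ?_, ?_, ?_⟩
  · intro g h x
    have h1 := hc (g * h)
    rw [map_mul, hc g, hc h, aff_mul] at h1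
    exact (congrFun (aff_right_injective _ h1) x).symm
  · exact aff_right_injective S ((hc S).symm.trans hΦS)
  · exact aff_right_injective U ((hc U).symm.trans hΦU)

/-- The homomorphism `Γ → A` attached to a pair `(a, b)`. -/
theorem exists_hom_of_pair (hneg : (-1 : SL(2, ℤ)) ∈ Γ) (a b : Cos Γ → A)
    (ha : ∀ x, a x + a (S • x) = 0) (hb : ∀ x, b x + b (U • x) + b (U • U • x) = 0) :
    ∃ (c : SL(2, ℤ) → Cos Γ → A) (hc : IsCoc Γ c) (ψ : Additive Γ →+ A),
      c S = a ∧ c U = b ∧ ψ = homOfCoc c hc := by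
  obtain ⟨c, hc, h1, h2⟩ := exists_cocycle hneg a b ha hb
  exact ⟨c, hc, homOfCoc c hc, h1, h2, rfl⟩

end existence

end

end Fermat.Agent.S16.H97
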