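/-
S16 (lower bound), helper97: the cusp-sum relation on `Γ₀(p)`.

For a prime `p`, `SL(2,ℤ) ⧸ Γ₀(p)` consists of the base coset and the `T`-orbit
`{T ^ j • S • base | j < p}`.  Summing the induced cocycle of a homomorphism
`ψ : Γ₀(p) → A` (`A` torsion-free) at `T` over all cosets gives
`ψ T + ψ (S⁻¹ T ^ p S) = 0`.
-/
import Fermat.Agent.S16.H97.Lift

set_option autoImplicit false

open scoped MatrixGroups
open ModularGroup CongruenceSubgroup Matrix

namespace Fermat.Agent.S16.H97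

noncomputable section

/-! ### Matrix computations -/

theorem coe_T_pow_nat (j : ℕ) :
    ((T ^ j : SL(2, ℤ)) : Matrix (Fin 2) (Fin 2) ℤ) = !![1, (j : ℤ); 0, 1] := by
  have := coe_T_zpow (j : ℤ)
  rwa [zpow_natCast] at this

theorem entry_inv_mul (j : ℕ) (g : SL(2, ℤ)) :
    ((T ^ j * S)⁻¹ * g) 1 0 = (j : ℤ) * g 1 0 - g 0 0 := by
  rw [Matrix.SpecialLinearGroup.coe_mul, Matrix.SpecialLinearGroup.coe_inv,
    Matrix.SpecialLinearGroup.coe_mul, coe_T_pow_nat, coe_S]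
  simp [Matrix.mul_apply, Fin.sum_univ_two, Matrix.adjugate_fin_two]
  ring

theorem T_pow_mul_S_apply (j : ℕ) :
    (T ^ j * S) 0 0 = (j : ℤ) ∧ (T ^ j * S) 1 0 = 1 := by
  rw [Matrix.SpecialLinearGroup.coe_mul, coe_T_pow_nat, coe_S]
  simp [Matrix.mul_apply, Fin.sum_univ_two]

theorem T_mem_Gamma0 (N : ℕ) : T ∈ Gamma0 N := by
  rw [Gamma0_mem]
  simp [T]

theorem V_mem_Gamma0 (N : ℕ) : S⁻¹ * T ^ N * S ∈ Gamma0 N := by
  have h : S⁻¹ * T ^ N * S = (T ^ 0 * S)⁻¹ * (T ^ N * S) := by simp [mul_assoc]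
  rw [Gamma0_mem, h, entry_inv_mul, (T_pow_mul_S_apply N).1, (T_pow_mul_S_apply N).2]
  simp

/-! ### The cosets of `Γ₀(p)` -/

variable (p : ℕ) [Fact p.Prime]

/-- The parametrisation of `SL(2,ℤ) ⧸ Γ₀(p)` by `Option (Fin p)`. -/
def cosetMap : Option (Fin p) → Cos (Gamma0 p)
  | none => base (Gamma0 p)
  | some j => (T ^ (j : ℕ) * S) • base (Gamma0 p)

omit [Fact p.Prime] in
theorem smul_base_eq_iff (g h : SL(2, ℤ)) :
    g • base (Gamma0 p) = h • base (Gamma0 p) ↔ g⁻¹ * h ∈ Gamma0 p := by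
  change (QuotientGroup.mk (g * 1) : Cos (Gamma0 p)) = QuotientGroup.mk (h * 1) ↔ _
  rw [mul_one, mul_one]
  exact QuotientGroup.eq

theorem cosetMap_injective : Function.Injective (cosetMap p) := by
  have hp : (p : ℕ).Prime := Fact.out
  have h1 : ∀ j : Fin p, (T ^ (j : ℕ) * S) • base (Gamma0 p) ≠ base (Gamma0 p) := by
    intro j h
    have h2 : (T ^ (j : ℕ) * S) • base (Gamma0 p) = (1 : SL(2, ℤ)) • base (Gamma0 p) := by
      rw [h, one_smul]
    rw [smul_base_eq_iff, Gamma0_mem, entry_inv_mul] at h2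
    simp at h2
  rintro (_ | i) (_ | j) h
  · rfl
  · exact absurd h.symm (h1 j)
  · exact absurd h (h1 i)
  · change (T ^ (i : ℕ) * S) • base (Gamma0 p) = (T ^ (j : ℕ) * S) • base (Gamma0 p) at h
    rw [smul_base_eq_iff, Gamma0_mem, entry_inv_mul, (T_pow_mul_S_apply j).1,
      (T_pow_mul_S_apply j).2] at h
    have h3 : ((i : ℕ) : ZMod p) = ((j : ℕ) : ZMod p) := by
      have : (((i : ℕ) : ℤ) : ZMod p) - (((j : ℕ) : ℤ) : ZMod p) = 0 := by
        simpa using h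
      have h4 := sub_eq_zero.mp this
      simpa using h4
    have h5 := (ZMod.natCast_eq_natCast_iff' _ _ _).mp h3
    rw [Nat.mod_eq_of_lt i.2, Nat.mod_eq_of_lt j.2] at h5
    exact congrArg some (Fin.ext h5)

theorem cosetMap_surjective : Function.Surjective (cosetMap p) := by
  have hp : (p : ℕ).Prime := Fact.out
  intro x
  induction x using QuotientGroup.induction_on with
  | H g =>
    have hx : (QuotientGroup.mk g : Cos (Gamma0 p)) = g • base (Gamma0 p) := by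
      change _ = (QuotientGroup.mk (g * 1) : Cos (Gamma0 p))
      rw [mul_one]
    by_cases hc : ((g 1 0 : ℤ) : ZMod p) = 0
    · refine ⟨none, ?_⟩
      rw [hx]
      change base (Gamma0 p) = _
      have : (1 : SL(2, ℤ)) • base (Gamma0 p) = g • base (Gamma0 p) := by
        rw [smul_base_eq_iff, inv_one, one_mul, Gamma0_mem]
        exact hc
      rw [← this, one_smul]
    · let t : ZMod p := ((g 0 0 : ℤ) : ZMod p) * ((g 1 0 : ℤ) : ZMod p)⁻¹
      have : NeZero p := ⟨hp.ne_zero⟩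
      refine ⟨some ⟨t.val, ZMod.val_lt t⟩, ?_⟩
      rw [hx]
      change (T ^ t.val * S) • base (Gamma0 p) = _
      rw [smul_base_eq_iff, Gamma0_mem, entry_inv_mul]
      push_cast
      rw [ZMod.natCast_zmod_val]
      change ((g 0 0 : ℤ) : ZMod p) * ((g 1 0 : ℤ) : ZMod p)⁻¹ * ((g 1 0 : ℤ) : ZMod p) -
        ((g 0 0 : ℤ) : ZMod p) = 0
      rw [inv_mul_cancel_right₀ hc, sub_self]

/-- `SL(2,ℤ) ⧸ Γ₀(p) ≃ Option (Fin p)`. -/
def cosetEquiv : Option (Fin p) ≃ Cos (Gamma0 p) :=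
  Equiv.ofBijective (cosetMap p) ⟨cosetMap_injective p, cosetMap_surjective p⟩

instance instFintypeCosGamma0 : Fintype (Cos (Gamma0 p)) :=
  Fintype.ofEquiv _ (cosetEquiv p)

/-! ### The cusp-sum relation -/

variable {A : Type*} [AddCommGroup A]

omit [Fact p.Prime] in
/-- The sum of an induced cocycle at `T` over the `T`-orbit of `S • base` is the value of the
character at `S⁻¹ T ^ p S`. -/
theorem sum_cocOf_T_orbit (ψ : Additive (Gamma0 p) →+ A) :
    ∑ j : Fin p, cocOf (Gamma0 p) ψ T ((T ^ (j : ℕ) * S) • base (Gamma0 p)) =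
      ext (Gamma0 p) ψ (S⁻¹ * T ^ p * S) := by
  have hfix : (T ^ p : SL(2, ℤ)) • (S • base (Gamma0 p)) = S • base (Gamma0 p) := by
    rw [← mul_smul, smul_base_eq_iff]
    have h : (T ^ p * S : SL(2, ℤ))⁻¹ * S = (S⁻¹ * T ^ p * S)⁻¹ := by group
    rw [h]
    exact (Gamma0 p).inv_mem (V_mem_Gamma0 p)
  have h1 := sum_cocOf_orbit ψ T p (S • base (Gamma0 p)) hfix
  have h2 : ∑ j : Fin p, cocOf (Gamma0 p) ψ T ((T ^ (j : ℕ) * S) • base (Gamma0 p)) =
      ∑ i ∈ Finset.range p, cocOf (Gamma0 p) ψ T (T ^ i • (S • base (Gamma0 p))) := by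
    rw [← Fin.sum_univ_eq_sum_range
      (fun i => cocOf (Gamma0 p) ψ T (T ^ i • (S • base (Gamma0 p)))) p]
    exact Finset.sum_congr rfl fun j _ => by rw [mul_smul]
  rw [h2, h1]
  -- `rep (S • base) = S * γ` with `γ ∈ Γ₀(p)`
  set r := rep (Gamma0 p) (S • base (Gamma0 p)) with hr
  have hγ : S⁻¹ * r ∈ Gamma0 p := by
    rw [← smul_base_eq_iff, hr, rep_smul_base]
  have h3 : r⁻¹ * T ^ p * r = (S⁻¹ * r)⁻¹ * (S⁻¹ * T ^ p * S) * (S⁻¹ * r) := by
    group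
  rw [h3, ext_conj ψ hγ (V_mem_Gamma0 p)]

/-- **Cusp-sum relation.**  For a homomorphism `ψ : Γ₀(p) → A` into a torsion-free abelian group,
`ψ T + ψ (S⁻¹ T ^ p S) = 0`. -/
theorem ext_T_add_ext_V [IsAddTorsionFree A] (ψ : Additive (Gamma0 p) →+ A) :
    ext (Gamma0 p) ψ T + ext (Gamma0 p) ψ (S⁻¹ * T ^ p * S) = 0 := by
  have h0 := (cocOf_isCoc ψ).sum_eq_zero T
  rw [← Equiv.sum_comp (cosetEquiv p) (cocOf (Gamma0 p) ψ T), Fintype.sum_option] at h0
  have h1 : cocOf (Gamma0 p) ψ T (cosetEquiv p none) = ext (Gamma0 p) ψ T :=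
    cocOf_base ψ (T_mem_Gamma0 p)
  have h2 : ∑ j : Fin p, cocOf (Gamma0 p) ψ T (cosetEquiv p (some j)) =
      ext (Gamma0 p) ψ (S⁻¹ * T ^ p * S) := sum_cocOf_T_orbit p ψ
  rw [h1, h2] at h0
  exact h0

/-- **Cusp-sum relation**, subtype form. -/
theorem apply_T_add_apply_V [IsAddTorsionFree A] (ψ : Additive (Gamma0 p) →+ A)
    (hT : T ∈ Gamma0 p) (hV : S⁻¹ * T ^ p * S ∈ Gamma0 p) :
    ψ (Additive.ofMul ⟨T, hT⟩) + ψ (Additive.ofMul ⟨S⁻¹ * T ^ p * S, hV⟩) = 0 := by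
  have h := ext_T_add_ext_V p ψ
  rwa [ext_of_mem ψ hT, ext_of_mem ψ hV] at h

end

end Fermat.Agent.S16.H97
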